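import Mathlib
import Fermat.Agent.S17.Interfaces

section MergeWrap_S17_Rat_Descent -- from S17/Rat/Descent.lean

set_option autoImplicit false

/-!
# S17 / heights package, piece (RAT): abstract Galois descent

`K ⊆ L` a (possibly infinite) Galois extension, `G = L ≃ₐ[K] L`, `V` an `L`-vector space with a
semilinear action `act` of `G`, `U` a `G`-stable `L`-subspace all of whose vectors have open
stabiliser.  Then `U` is spanned over `L` by its `G`-fixed vectors (`span_fixed_eq`).

The proof is the classical trace argument: for `u ∈ U` fixed by `Gal(L/E)`, `E/K` finite normal,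
the vectors `t e = ∑_{γ ∈ Gal(E/K)} γ(e) • γ u` (`e ∈ E`) are fixed, and `u` lies in their span by
Dedekind's independence of characters.
-/

noncomputable section

namespace Fermat.Agent.S17.RatDesc

open IntermediateField

variable {K L V : Type*} [Field K] [Field L] [Algebra K L] [AddCommGroup V] [Module L V]

/-- A semilinear action of `L ≃ₐ[K] L` on an `L`-vector space, as a bare function with axioms. -/
structure SemiAct (K L V : Type*) [Field K] [Field L] [Algebra K L] [AddCommGroup V]
    [Module L V] where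
  /-- the action -/
  act : (L ≃ₐ[K] L) → V → V
  act_one : ∀ v, act 1 v = v
  act_mul : ∀ g h v, act (g * h) v = act g (act h v)
  act_add : ∀ g v w, act g (v + w) = act g v + act g w
  act_smul : ∀ g (a : L) v, act g (a • v) = g a • act g v

namespace SemiAct

variable (A : SemiAct K L V)

theorem act_zero (g : L ≃ₐ[K] L) : A.act g 0 = 0 := by
  have h := A.act_add g 0 0
  rw [add_zero] at h
  exact left_eq_add.mp h

theorem act_sum {ι : Type*} (s : Finset ι) (g : L ≃ₐ[K] L) (f : ι → V) :
    A.act g (∑ i ∈ s, f i) = ∑ i ∈ s, A.act g (f i) := by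
  classical
  induction s using Finset.induction_on with
  | empty => simpa using A.act_zero g
  | insert a s ha ih => rw [Finset.sum_insert ha, Finset.sum_insert ha, A.act_add, ih]

/-- the set of fixed vectors -/
def fixed : Set V := {v | ∀ g, A.act g v = v}

/-- `u` has open stabiliser -/
def OpenStab (u : V) : Prop :=
  ∃ E : IntermediateField K L, FiniteDimensional K E ∧
    ∀ g : L ≃ₐ[K] L, (∀ a ∈ E, g a = a) → A.act g u = u

end SemiAct

section Main

variable [Normal K L] (A : SemiAct K L V)

/-- the key step: a vector with open stabiliser lies in the span of the fixed vectors of any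
stable subspace containing it. -/
theorem mem_span_fixed (U : Submodule L V) (hU : ∀ g, ∀ u ∈ U, A.act g u ∈ U)
    {u : V} (hu : u ∈ U) (hopen : A.OpenStab u) :
    u ∈ Submodule.span L {v | v ∈ U ∧ ∀ g, A.act g v = v} := by
  classical
  obtain ⟨E₀, hE₀, hfix₀⟩ := hopen
  -- pass to the normal closure
  set E : IntermediateField K L := normalClosure K E₀ L with hE
  have hEfin : FiniteDimensional K E := normalClosure.is_finiteDimensional K E₀ L
  have hEnorm : Normal K E := normalClosure.normal K E₀ L
  have hle : E₀ ≤ E := IntermediateField.le_normalClosure E₀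
  have hfix : ∀ g : L ≃ₐ[K] L, (∀ a ∈ E, g a = a) → A.act g u = u :=
    fun g hg => hfix₀ g fun a ha => hg a (hle ha)
  -- the finite Galois group and the restriction map
  let res : (L ≃ₐ[K] L) →* (E ≃ₐ[K] E) := AlgEquiv.restrictNormalHom E
  have hres_surj : Function.Surjective res := AlgEquiv.restrictNormalHom_surjective L
  have hres_apply : ∀ (g : L ≃ₐ[K] L) (x : E), ((res g x : E) : L) = g (x : L) :=
    fun g x => AlgEquiv.restrictNormalHom_apply E g x
  let _ : Fintype (E ≃ₐ[K] E) := Fintype.ofFinite _
  let s : (E ≃ₐ[K] E) → (L ≃ₐ[K] L) := Function.surjInv hres_surj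
  have hs : ∀ γ, res (s γ) = γ := Function.surjInv_eq hres_surj
  -- key fact
  have KF : ∀ g g' : L ≃ₐ[K] L, res g = res g' → A.act g u = A.act g' u := by
    intro g g' h
    have h1 : res (g⁻¹ * g') = 1 := by rw [map_mul, map_inv, h, inv_mul_cancel]
    have h2 : A.act (g⁻¹ * g') u = u := by
      apply hfix
      intro a ha
      have := hres_apply (g⁻¹ * g') ⟨a, ha⟩
      rw [h1] at this
      exact this.symm
    calc A.act g u = A.act g (A.act (g⁻¹ * g') u) := by rw [h2]
      _ = A.act (g * (g⁻¹ * g')) u := (A.act_mul _ _ _).symm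
      _ = A.act g' u := by rw [mul_inv_cancel_left]
  -- the trace vectors
  let t : E → V := fun e => ∑ γ : E ≃ₐ[K] E, ((γ e : E) : L) • A.act (s γ) u
  have ht_mem : ∀ e, t e ∈ U := fun e =>
    Submodule.sum_mem _ fun γ _ => Submodule.smul_mem _ _ (hU _ _ hu)
  have ht_fix : ∀ e g, A.act g (t e) = t e := by
    intro e g
    show A.act g (∑ γ : E ≃ₐ[K] E, ((γ e : E) : L) • A.act (s γ) u) = _
    rw [A.act_sum]
    have h1 : ∀ γ : E ≃ₐ[K] E, A.act g (((γ e : E) : L) • A.act (s γ) u)
        = (((res g * γ) e : E) : L) • A.act (s (res g * γ)) u := by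
      intro γ
      rw [A.act_smul, ← A.act_mul]
      congr 1
      · rw [← hres_apply]; rfl
      · apply KF
        rw [map_mul, hs, hs]
    rw [Finset.sum_congr rfl fun γ _ => h1 γ]
    exact Fintype.sum_equiv (Equiv.mulLeft (res g)) _ _ fun γ => rfl
  -- `u` is in the span of the `t e`
  have hspan : u ∈ Submodule.span L (Set.range t) := by
    by_contra hnot
    obtain ⟨φ, hφu, hφ⟩ := Submodule.exists_le_ker_of_notMem hnot
    have hφt : ∀ e, φ (t e) = 0 := fun e =>
      LinearMap.mem_ker.mp (hφ (Submodule.subset_span ⟨e, rfl⟩))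
    -- characters
    let χ : (E ≃ₐ[K] E) → (E →* L) := fun γ =>
      ((algebraMap E L).comp (γ : E →+* E) : E →+* L).toMonoidHom
    have hχ_inj : Function.Injective χ := by
      intro γ γ' h
      ext x
      have := DFunLike.congr_fun h x
      exact congrArg Subtype.val (Subtype.ext this)
    have hli := (linearIndependent_monoidHom E L).comp χ hχ_inj
    rw [Fintype.linearIndependent_iff] at hli
    have hzero : ∑ γ : E ≃ₐ[K] E, φ (A.act (s γ) u) • (fun x : E => (χ γ x : L)) = 0 := by
      funext e
      have := hφt e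
      simp only [t, map_sum, map_smul, smul_eq_mul] at this
      simp only [Finset.sum_apply, Pi.smul_apply, smul_eq_mul, Pi.zero_apply]
      rw [← this]
      refine Finset.sum_congr rfl fun γ _ => ?_
      rw [mul_comm]
      rfl
    have h1 := hli (fun γ => φ (A.act (s γ) u)) hzero 1
    have h2 : A.act (s 1) u = u := by
      rw [KF (s 1) 1 (by rw [hs, map_one]), A.act_one]
    rw [h2] at h1
    exact hφu h1
  refine Submodule.span_mono ?_ hspan
  rintro _ ⟨e, rfl⟩
  exact ⟨ht_mem e, ht_fix e⟩

/-- **Galois descent.** A stable subspace whose vectors have open stabilisers is spanned by its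
fixed vectors. -/
theorem span_fixed_eq (U : Submodule L V) (hU : ∀ g, ∀ u ∈ U, A.act g u ∈ U)
    (hopen : ∀ u ∈ U, A.OpenStab u) :
    Submodule.span L {v | v ∈ U ∧ ∀ g, A.act g v = v} = U := by
  apply le_antisymm
  · exact Submodule.span_le.mpr fun v hv => hv.1
  · exact fun u hu => mem_span_fixed A U hU hu (hopen u hu)

/-- A finite-dimensional stable subspace whose vectors have open stabilisers has a basis
consisting of fixed vectors (family form). -/
theorem exists_fixed_family (U : Submodule L V) [FiniteDimensional L U]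
    (hU : ∀ g, ∀ u ∈ U, A.act g u ∈ U) (hopen : ∀ u ∈ U, A.OpenStab u) :
    ∃ (n : ℕ) (b : Fin n → V), LinearIndependent L b ∧ Submodule.span L (Set.range b) = U ∧
      ∀ i g, A.act g (b i) = b i := by
  classical
  obtain ⟨B, hBS, hBspan, hBli⟩ := exists_linearIndependent L {v | v ∈ U ∧ ∀ g, A.act g v = v}
  rw [span_fixed_eq A U hU hopen] at hBspan
  have hBU : ∀ x : B, (x : V) ∈ U := fun x => (hBS x.2).1
  -- `B` is finite
  have hli' : LinearIndependent L (fun x : B => (⟨(x : V), hBU x⟩ : U)) := by
    apply LinearIndependent.of_comp U.subtype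
    exact hBli
  have : Finite B := hli'.finite
  obtain ⟨n, ⟨e⟩⟩ : ∃ n : ℕ, Nonempty (B ≃ Fin n) := Finite.exists_equiv_fin B
  refine ⟨n, fun i => ((e.symm i : B) : V), hBli.comp e.symm e.symm.injective, ?_,
    fun i g => (hBS (e.symm i).2).2 g⟩
  have hrange : Set.range (fun i => ((e.symm i : B) : V)) = B := by
    ext v
    constructor
    · rintro ⟨i, rfl⟩
      exact (e.symm i).2
    · intro hv
      exact ⟨e ⟨v, hv⟩, by simp⟩
  rw [hrange, hBspan]

/-- A finite-dimensional stable subspace whose vectors have open stabilisers has a basis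
consisting of fixed vectors (`Module.Basis` form). -/
theorem exists_fixed_basis (U : Submodule L V) [FiniteDimensional L U]
    (hU : ∀ g, ∀ u ∈ U, A.act g u ∈ U) (hopen : ∀ u ∈ U, A.OpenStab u) :
    ∃ (n : ℕ) (b : Module.Basis (Fin n) L U), ∀ i g, A.act g (b i : V) = (b i : V) := by
  classical
  obtain ⟨n, b, hli, hspan, hfix⟩ := exists_fixed_family A U hU hopen
  have hbU : ∀ i, b i ∈ U := fun i => by
    rw [← hspan]
    exact Submodule.subset_span ⟨i, rfl⟩
  let b' : Fin n → U := fun i => ⟨b i, hbU i⟩
  have hli' : LinearIndependent L b' := by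
    apply LinearIndependent.of_comp U.subtype
    exact hli
  have hsp' : ⊤ ≤ Submodule.span L (Set.range b') := by
    rintro ⟨u, hu⟩ -
    have h1 : u ∈ Submodule.span L (Set.range b) := by rw [hspan]; exact hu
    have h2 : Set.range b = U.subtype '' Set.range b' := by
      rw [← Set.range_comp]
      rfl
    rw [h2, ← Submodule.map_span] at h1
    obtain ⟨y, hy, hyu⟩ := h1
    have : y = ⟨u, hu⟩ := Subtype.ext hyu
    rw [← this]
    exact hy
  refine ⟨n, Module.Basis.mk hli' hsp', fun i g => ?_⟩
  rw [Module.Basis.mk_apply]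
  exact hfix i g

end Main

section Avoid

variable [Normal K L] [Infinite K] (A : SemiAct K L V)

/-- **Avoidance.** A stable subspace `U` (with open stabilisers) which is not contained in any of
finitely many subspaces `W i` contains a fixed vector outside all the `W i`. -/
theorem exists_fixed_notMem {ι : Type*} [Finite ι] (U : Submodule L V)
    (hU : ∀ g, ∀ u ∈ U, A.act g u ∈ U) (hopen : ∀ u ∈ U, A.OpenStab u)
    (W : ι → Submodule L V) (hW : ∀ i, ¬ U ≤ W i) :
    ∃ f ∈ U, (∀ g, A.act g f = f) ∧ ∀ i, f ∉ W i := by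
  classical
  let _ : Module K V := Module.compHom V (algebraMap K L)
  have hsmul : ∀ (k : K) (v : V), k • v = algebraMap K L k • v := fun _ _ => rfl
  have : IsScalarTower K L V := ⟨fun k l v => by
    rw [hsmul, Algebra.smul_def, mul_smul]⟩
  -- the `K`-subspace of fixed vectors of `U`
  let U₀ : Submodule K V :=
    { carrier := {v | v ∈ U ∧ ∀ g, A.act g v = v}
      add_mem' := fun {a b} ha hb =>
        ⟨U.add_mem ha.1 hb.1, fun g => by rw [A.act_add, ha.2 g, hb.2 g]⟩
      zero_mem' := ⟨U.zero_mem, fun g => A.act_zero g⟩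
      smul_mem' := fun k v hv =>
        ⟨by rw [hsmul]; exact U.smul_mem _ hv.1, fun g => by
          rw [hsmul, A.act_smul, hv.2 g, AlgEquiv.commutes]⟩ }
  let p : ι → Submodule K U₀ := fun i => Submodule.comap U₀.subtype ((W i).restrictScalars K)
  by_contra hcon
  push Not at hcon
  have hcov : ⋃ i, (p i : Set U₀) = Set.univ := by
    apply Set.eq_univ_of_forall
    rintro ⟨f, hf⟩
    obtain ⟨i, hi⟩ := hcon f hf.1 hf.2
    exact Set.mem_iUnion.mpr ⟨i, hi⟩
  obtain ⟨i, hi⟩ := Subspace.exists_eq_top_of_iUnion_eq_univ hcov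
  apply hW i
  rw [← span_fixed_eq A U hU hopen]
  apply Submodule.span_le.mpr
  intro v hv
  have h1 : (⟨v, hv⟩ : U₀) ∈ p i := by rw [hi]; exact Submodule.mem_top
  exact h1

end Avoid

end Fermat.Agent.S17.RatDesc
end
end MergeWrap_S17_Rat_Descent

section MergeWrap_S17_Rat_Modular -- from S17/Rat/Modular.lean

set_option autoImplicit false

/-!
# S17 / heights package, piece (RAT): Galois descent in the modular function field

`F = modularFunctionFieldBar N` with the arithmetic (coefficientwise, semilinear) action of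
`GQ = Gal(ℚ̄/ℚ)`.

* `RatDesc.openStab`          (i)   every `f ∈ F` is fixed by the fixing subgroup of a number field;
* `RatDesc.span_fixed`        (ii)  a `GQ`-stable `ℚ̄`-subspace `U` of `F` is spanned by its fixed
                                  vectors;
* `RatDesc.exists_fixed_family'` (ii') ... and if `U` is finite-dimensional it has a basis of fixed
                                  vectors;
* `RatDesc.fixed_const`       (iii) a `GQ`-fixed element of `ℚ̄` is rational;
* `RatDesc.exists_fixed_notMem'` (iv)  a `GQ`-stable `U` not contained in any of finitely many subspaces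
                                  `W i` has a fixed vector outside all the `W i`.
-/

noncomputable section

namespace Fermat.Agent.S17.RatDesc

open ModularCurve AlgebraicCurve IntermediateField

local notation "Qb" => AlgebraicClosure ℚ

/-! ### (i) open stabilisers -/

/-- A Laurent series over `ℚ̄` is fixed (coefficientwise) by the fixing subgroup of a number
field. -/
def IsNF (y : LaurentSeries Qb) : Prop :=
  ∃ E : IntermediateField ℚ Qb, FiniteDimensional ℚ E ∧
    ∀ σ : GQ, (∀ a ∈ E, σ a = a) → coeffMap (σ : Qb →+* Qb) y = y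

theorem isNF_algebraMap (c : Qb) : IsNF (algebraMap Qb (LaurentSeries Qb) c) := by
  refine ⟨ℚ⟮c⟯, ?_, fun σ hσ => ?_⟩
  · exact IntermediateField.adjoin.finiteDimensional
      ((AlgebraicClosure.isAlgebraic ℚ).isAlgebraic c).isIntegral
  · rw [coeffMap_algebraMap]
    congr 1
    exact hσ c (IntermediateField.mem_adjoin_simple_self ℚ c)

theorem isNF_coeffEmb (z : LaurentSeries ℚ) : IsNF (coeffEmb Qb z) :=
  ⟨⊥, inferInstance, fun σ _ => coeffMap_coeffEmb σ z⟩

theorem IsNF.binary {x y z : LaurentSeries Qb} (hx : IsNF x) (hy : IsNF y)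
    (h : ∀ φ : LaurentSeries Qb →+* LaurentSeries Qb, φ x = x → φ y = y → φ z = z) :
    IsNF z := by
  obtain ⟨L₁, hL₁, h₁⟩ := hx
  obtain ⟨L₂, hL₂, h₂⟩ := hy
  refine ⟨L₁ ⊔ L₂, IntermediateField.finiteDimensional_sup L₁ L₂, fun σ hσ => ?_⟩
  exact h _ (h₁ σ fun a ha => hσ a ((le_sup_left : L₁ ≤ L₁ ⊔ L₂) ha))
    (h₂ σ fun a ha => hσ a ((le_sup_right : L₂ ≤ L₁ ⊔ L₂) ha))

theorem IsNF.unary {x z : LaurentSeries Qb} (hx : IsNF x)
    (h : ∀ φ : LaurentSeries Qb →+* LaurentSeries Qb, φ x = x → φ z = z) : IsNF z :=
  hx.binary hx fun φ h1 _ => h φ h1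

/-- Every element of a base-changed function field is defined over a number field. -/
theorem isNF_of_mem (F₀ : IntermediateField ℚ (LaurentSeries ℚ))
    {y : LaurentSeries Qb} (hy : y ∈ laurentBaseChange Qb F₀) : IsNF y := by
  rw [mem_laurentBaseChange_iff] at hy
  induction hy using Subfield.closure_induction with
  | mem y hy =>
      rcases hy with ⟨a, rfl⟩ | ⟨z, _, rfl⟩
      · exact isNF_algebraMap a
      · exact isNF_coeffEmb z
  | one => exact ⟨⊥, inferInstance, fun σ _ => map_one _⟩
  | add x y _ _ hx hy => exact hx.binary hy fun φ h1 h2 => by rw [map_add, h1, h2]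
  | neg x _ hx => exact hx.unary fun φ h1 => by rw [map_neg, h1]
  | inv x _ hx =>
      obtain ⟨L, hL, h⟩ := hx
      exact ⟨L, hL, fun σ hσ => by
        have := h σ hσ
        calc coeffMap (σ : Qb →+* Qb) x⁻¹ = (coeffMap (σ : Qb →+* Qb) x)⁻¹ := map_inv₀ _ x
          _ = x⁻¹ := by rw [this]⟩
  | mul x y _ _ hx hy => exact hx.binary hy fun φ h1 h2 => by rw [map_mul, h1, h2]

/-- semilinearity of a `SemilinearAut`, generic form -/
theorem semilinearAut_smul_smul {K F : Type*} [Field K] [Field F] [Algebra K F]
    (g : SemilinearAut K F) (a : K) (v : F) :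
    g • (a • v) = SemilinearAut.baseAut g a • (g • v) := by
  rw [Algebra.smul_def, Algebra.smul_def, smul_mul', SemilinearAut.smul_algebraMap]

local instance ratIsAlgebraicQb : Algebra.IsAlgebraic ℚ Qb := AlgebraicClosure.isAlgebraic ℚ

local instance ratIsAlgClosureQb : IsAlgClosure ℚ Qb := ⟨inferInstance, inferInstance⟩

local instance ratNormalQb : Normal ℚ Qb := IsAlgClosure.normal ℚ Qb

local instance ratIsGaloisQb : IsGalois ℚ Qb := IsAlgClosure.isGalois ℚ Qb

section General

variable (F₀ : IntermediateField ℚ (LaurentSeries ℚ))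

/-- semilinearity of the arithmetic action -/
theorem arith_smul_smul (g : GQ) (a : Qb) (v : laurentBaseChange Qb F₀) :
    arithmeticGalois F₀ g • (a • v) = g a • (arithmeticGalois F₀ g • v) :=
  semilinearAut_smul_smul (arithmeticGalois F₀ g) a v

/-- The arithmetic action of `GQ` on a base-changed function field, as a `SemiAct`. -/
def arithAct : SemiAct ℚ Qb (laurentBaseChange Qb F₀) where
  act σ f := arithmeticGalois F₀ σ • f
  act_one f := by rw [map_one, one_smul]
  act_mul g h f := by rw [map_mul, mul_smul]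
  act_add g v w := smul_add _ v w
  act_smul g a v := arith_smul_smul F₀ g a v

theorem arithAct_act (σ : GQ) (f : laurentBaseChange Qb F₀) :
    (arithAct F₀).act σ f = arithmeticGalois F₀ σ • f := rfl

/-- (i), general form: every element of the base-changed function field is fixed by the fixing
subgroup of a number field. -/
theorem openStab_general (f : laurentBaseChange Qb F₀) :
    ∃ E : IntermediateField ℚ Qb, FiniteDimensional ℚ E ∧
      ∀ σ : GQ, (∀ a ∈ E, σ a = a) → arithmeticGalois F₀ σ • f = f := by
  obtain ⟨E, hE, h⟩ := isNF_of_mem F₀ f.2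
  exact ⟨E, hE, fun σ hσ => Subtype.ext ((coe_arithmeticGalois_smul F₀ σ f).trans (h σ hσ))⟩

theorem arithAct_openStab (f : laurentBaseChange Qb F₀) : (arithAct F₀).OpenStab f :=
  openStab_general F₀ f

/-- (ii), general form. -/
theorem span_fixed_general (U : Submodule Qb (laurentBaseChange Qb F₀))
    (hU : ∀ σ : GQ, ∀ f ∈ U, arithmeticGalois F₀ σ • f ∈ U) :
    Submodule.span Qb {f | f ∈ U ∧ ∀ σ : GQ, arithmeticGalois F₀ σ • f = f} = U :=
  span_fixed_eq (arithAct F₀) U hU fun f _ => arithAct_openStab F₀ f

/-- (ii'), general form: a basis of fixed vectors, as a family. -/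
theorem exists_fixed_family_general (U : Submodule Qb (laurentBaseChange Qb F₀))
    [FiniteDimensional Qb U] (hU : ∀ σ : GQ, ∀ f ∈ U, arithmeticGalois F₀ σ • f ∈ U) :
    ∃ (n : ℕ) (b : Fin n → laurentBaseChange Qb F₀), LinearIndependent Qb b ∧
      Submodule.span Qb (Set.range b) = U ∧
      ∀ (i : Fin n) (σ : GQ), arithmeticGalois F₀ σ • b i = b i :=
  exists_fixed_family (arithAct F₀) U hU fun f _ => arithAct_openStab F₀ f

/-- (ii'), general form: a basis of fixed vectors. -/
theorem exists_fixed_basis_general (U : Submodule Qb (laurentBaseChange Qb F₀))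
    [FiniteDimensional Qb U] (hU : ∀ σ : GQ, ∀ f ∈ U, arithmeticGalois F₀ σ • f ∈ U) :
    ∃ (n : ℕ) (b : Module.Basis (Fin n) Qb U),
      ∀ (i : Fin n) (σ : GQ),
        arithmeticGalois F₀ σ • (b i : laurentBaseChange Qb F₀) = (b i : laurentBaseChange Qb F₀) :=
  exists_fixed_basis (arithAct F₀) U hU fun f _ => arithAct_openStab F₀ f

/-- (iv), general form. -/
theorem exists_fixed_notMem_general {ι : Type*} [Finite ι]
    (U : Submodule Qb (laurentBaseChange Qb F₀))
    (hU : ∀ σ : GQ, ∀ f ∈ U, arithmeticGalois F₀ σ • f ∈ U)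
    (W : ι → Submodule Qb (laurentBaseChange Qb F₀)) (hW : ∀ i, ¬ U ≤ W i) :
    ∃ f ∈ U, (∀ σ : GQ, arithmeticGalois F₀ σ • f = f) ∧ ∀ i, f ∉ W i :=
  exists_fixed_notMem (arithAct F₀) U hU (fun f _ => arithAct_openStab F₀ f) W hW

end General

/-! ### (iii) fixed constants are rational -/

/-- (iii) a `GQ`-fixed element of `ℚ̄` is rational. -/
theorem fixed_const (a : Qb) (h : ∀ σ : GQ, σ a = a) : ∃ q : ℚ, algebraMap ℚ Qb q = a :=
  (InfiniteGalois.mem_range_algebraMap_iff_fixed a).mpr h

theorem fixed_const_iff (a : Qb) : (∀ σ : GQ, σ a = a) ↔ ∃ q : ℚ, algebraMap ℚ Qb q = a :=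
  (InfiniteGalois.mem_range_algebraMap_iff_fixed a).symm

/-- the Laurent coefficients of a `GQ`-fixed element of a base-changed function field are
rational -/
theorem coeff_rat_of_fixed (F₀ : IntermediateField ℚ (LaurentSeries ℚ))
    (f : laurentBaseChange Qb F₀) (h : ∀ σ : GQ, arithmeticGalois F₀ σ • f = f) (k : ℤ) :
    ∃ q : ℚ, algebraMap ℚ Qb q = (f : LaurentSeries Qb).coeff k := by
  apply fixed_const
  intro σ
  have h1 : coeffMap (σ : Qb →+* Qb) (f : LaurentSeries Qb) = (f : LaurentSeries Qb) :=
    (coe_arithmeticGalois_smul F₀ σ f).symm.trans (congrArg Subtype.val (h σ))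
  have h2 := congrArg (fun y : LaurentSeries Qb => y.coeff k) h1
  exact h2

/-! ### the modular function field -/

section Modular

variable (N : ℕ)

/-- **(i)** every `f ∈ F = modularFunctionFieldBar N` is fixed by the fixing subgroup of a number
field. -/
theorem openStab (f : modularFunctionFieldBar N) :
    ∃ E : IntermediateField ℚ Qb, FiniteDimensional ℚ E ∧
      ∀ σ : GQ, (∀ a ∈ E, σ a = a) →
        arithmeticGalois (modularFunctionFieldFull N) σ • f = f :=
  openStab_general (modularFunctionFieldFull N) f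

/-- **(ii)** a `GQ`-stable `ℚ̄`-subspace of `F` is spanned by its `GQ`-fixed vectors. -/
theorem span_fixed (U : Submodule Qb (modularFunctionFieldBar N))
    (hU : ∀ σ : GQ, ∀ f ∈ U, arithmeticGalois (modularFunctionFieldFull N) σ • f ∈ U) :
    Submodule.span Qb
      {f | f ∈ U ∧ ∀ σ : GQ, arithmeticGalois (modularFunctionFieldFull N) σ • f = f} = U :=
  span_fixed_general (modularFunctionFieldFull N) U hU

/-- **(ii')** a finite-dimensional `GQ`-stable subspace of `F` has a basis of fixed vectors
(family form). -/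
theorem exists_fixed_family' (U : Submodule Qb (modularFunctionFieldBar N))
    [FiniteDimensional Qb U]
    (hU : ∀ σ : GQ, ∀ f ∈ U, arithmeticGalois (modularFunctionFieldFull N) σ • f ∈ U) :
    ∃ (n : ℕ) (b : Fin n → modularFunctionFieldBar N), LinearIndependent Qb b ∧
      Submodule.span Qb (Set.range b) = U ∧
      ∀ (i : Fin n) (σ : GQ), arithmeticGalois (modularFunctionFieldFull N) σ • b i = b i :=
  exists_fixed_family_general (modularFunctionFieldFull N) U hU

/-- **(ii')** a finite-dimensional `GQ`-stable subspace of `F` has a basis of fixed vectors. -/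
theorem exists_fixed_basis' (U : Submodule Qb (modularFunctionFieldBar N))
    [FiniteDimensional Qb U]
    (hU : ∀ σ : GQ, ∀ f ∈ U, arithmeticGalois (modularFunctionFieldFull N) σ • f ∈ U) :
    ∃ (n : ℕ) (b : Module.Basis (Fin n) Qb U),
      ∀ (i : Fin n) (σ : GQ),
        arithmeticGalois (modularFunctionFieldFull N) σ • (b i : modularFunctionFieldBar N)
          = (b i : modularFunctionFieldBar N) :=
  exists_fixed_basis_general (modularFunctionFieldFull N) U hU

/-- **(iv)** if the `GQ`-stable subspace `U` is not contained in any of the finitely many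
subspaces `W i`, there is a `GQ`-fixed `f ∈ U` outside all the `W i`. -/
theorem exists_fixed_notMem' {ι : Type*} [Finite ι]
    (U : Submodule Qb (modularFunctionFieldBar N))
    (hU : ∀ σ : GQ, ∀ f ∈ U, arithmeticGalois (modularFunctionFieldFull N) σ • f ∈ U)
    (W : ι → Submodule Qb (modularFunctionFieldBar N)) (hW : ∀ i, ¬ U ≤ W i) :
    ∃ f ∈ U, (∀ σ : GQ, arithmeticGalois (modularFunctionFieldFull N) σ • f = f) ∧
      ∀ i, f ∉ W i :=
  exists_fixed_notMem_general (modularFunctionFieldFull N) U hU W hW

/-- **(iv)**, in the form "finitely many proper subspaces `W i ⊊ U`". -/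
theorem exists_fixed_notMem_of_lt {ι : Type*} [Finite ι]
    (U : Submodule Qb (modularFunctionFieldBar N))
    (hU : ∀ σ : GQ, ∀ f ∈ U, arithmeticGalois (modularFunctionFieldFull N) σ • f ∈ U)
    (W : ι → Submodule Qb (modularFunctionFieldBar N)) (hW : ∀ i, W i < U) :
    ∃ f ∈ U, (∀ σ : GQ, arithmeticGalois (modularFunctionFieldFull N) σ • f = f) ∧
      ∀ i, f ∉ W i :=
  exists_fixed_notMem' N U hU W fun i => not_le_of_gt (hW i)

end Modular

end Fermat.Agent.S17.RatDesc
end
end MergeWrap_S17_Rat_Modular
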